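import Mathlib
import Fermat.Agent.S30.Model.LocalDisc
import Fermat.Agent.S30.Model.DiscUnit
import Fermat.Agent.S30.Model.RegLocal

/-!
# From field-trace self-duality to a family with a scaled trace-dual family

`A` a Noetherian integrally closed domain, `K = Frac A`, `L / K` finite separable, `q` a prime
element of `A`.  If the integral closure of `A` in `L` is trace-self-dual at `q`
(`LocalDisc.TSDField A K L q`), then there are families `β, β' : Fin n → L` (`n = [L : K]`) of
elements integral over `A` and `t ∈ A`, `q ∤ t`, with `Tr_{L/K}(β i * β' j) = t δ_{ij}`.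

(The localisation `A_(q)` is a DVR, the integral closure of `A_(q)` is free with unit
discriminant, so it contains the trace-dual basis of any of its bases; then clear the
denominators, which are prime to `q`.)
-/

set_option autoImplicit false

namespace Fermat.Agent.S30.Model.BranchAlt

open Fermat.Agent.S30.Model

universe u v

variable {A : Type u} {K : Type*} {L : Type v} [CommRing A] [IsDomain A] [IsNoetherianRing A]
  [IsIntegrallyClosed A]
  [Field K] [Algebra A K] [IsFractionRing A K] [Field L] [Algebra K L] [Algebra A L]
  [IsScalarTower A K L] [FiniteDimensional K L] [Algebra.IsSeparable K L]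

/-- **TSD ⇒ dual family.** -/
theorem exists_dual_family {q : A} (hq : Prime q) (h : LocalDisc.TSDField A K L q) :
    ∃ (n : ℕ) (β β' : Fin n → L) (t : A), n = Module.finrank K L ∧ ¬ q ∣ t ∧
      (∀ i, IsIntegral A (β i)) ∧ (∀ i, IsIntegral A (β' i)) ∧
      ∀ i j, Algebra.trace K L (β i * β' j) = if i = j then algebraMap A K t else 0 := by
  classical
  have hinjK : Function.Injective (algebraMap A K) := IsFractionRing.injective A K
  have hinj : Function.Injective (algebraMap A L) := by
    rw [IsScalarTower.algebraMap_eq A K L]
    exact (algebraMap K L).injective.comp hinjK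
  set x : Ideal A := Ideal.span {q} with hx
  have hxprime : x.IsPrime := (Ideal.span_singleton_prime hq.ne_zero).mpr hq
  have hqx : q ∈ x := Ideal.mem_span_singleton_self q
  have hunitK : ∀ y : x.primeCompl, IsUnit (algebraMap A K y) := fun y =>
    IsUnit.mk0 _ ((map_ne_zero_iff _ hinjK).mpr (fun h0 => y.2 (h0 ▸ x.zero_mem)))
  let R := Localization.AtPrime x
  let algRK : Algebra R K := (IsLocalization.lift (M := x.primeCompl) hunitK).toAlgebra
  have towerARK : IsScalarTower A R K := IsScalarTower.of_algebraMap_eq fun a => by
    simp [RingHom.algebraMap_toAlgebra, R]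
  have fracR : IsFractionRing R K :=
    IsFractionRing.isFractionRing_of_isDomain_of_isLocalization x.primeCompl R K
  let algRL : Algebra R L := ((algebraMap K L).comp (algebraMap R K)).toAlgebra
  have towerRKL : IsScalarTower R K L := IsScalarTower.of_algebraMap_eq fun a => rfl
  have towerARL : IsScalarTower A R L := IsScalarTower.of_algebraMap_eq fun a => by
    rw [RingHom.algebraMap_toAlgebra, RingHom.comp_apply, ← IsScalarTower.algebraMap_apply A R K,
      ← IsScalarTower.algebraMap_apply A K L]
  have domR : IsDomain R := IsLocalization.isDomain_of_atPrime R x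
  have locR : IsLocalRing R := IsLocalization.AtPrime.isLocalRing R x
  have noethR : IsNoetherianRing R := IsLocalization.isNoetherianRing x.primeCompl R inferInstance
  have icR : IsIntegrallyClosed R :=
    isIntegrallyClosed_of_isLocalization R x.primeCompl x.primeCompl_le_nonZeroDivisors
  have hq' : Prime (algebraMap A R q) := RegLocal.prime_algebraMap q x R hq hqx
  have hmaxR : IsLocalRing.maximalIdeal R = Ideal.span {algebraMap A R q} := by
    rw [← IsLocalization.AtPrime.map_eq_maximalIdeal x R]
    have h1 := Ideal.map_span (algebraMap A R) {q}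
    rw [Set.image_singleton] at h1
    exact h1
  have pidR : IsPrincipalIdealRing R := by
    refine ((tfae_of_isNoetherianRing_of_isLocalRing_of_isDomain (R := R)).out 0 4).mpr ?_
    rw [hmaxR]
    exact ⟨⟨_, rfl⟩⟩
  have finC : Module.Finite R (integralClosure R L) :=
    IsIntegralClosure.finite R K L (integralClosure R L)
  have hinjRL : Function.Injective (algebraMap R L) :=
    (algebraMap K L).injective.comp (IsFractionRing.injective R K)
  have tfL : Module.IsTorsionFree R L := Module.isTorsionFree_iff_algebraMap_injective.mpr hinjRL
  have tfC : Module.IsTorsionFree R (integralClosure R L) := inferInstance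
  have freeC : Module.Free R (integralClosure R L) := Module.free_of_finite_type_torsion_free'
  have hloc : IsLocalization (Algebra.algebraMapSubmonoid (integralClosure R L)
      (nonZeroDivisors R)) L := IsIntegralClosure.isLocalization R K L (integralClosure R L)
  have hTSD : DiscUnit.TraceSelfDualAt R (integralClosure R L) (algebraMap A R q) :=
    LocalDisc.traceSelfDualAt_of_tsdField (K := K) (L := L) x q hq hqx h
  let b := Module.finBasis R (integralClosure R L)
  have hdisc : ¬ algebraMap A R q ∣ Algebra.discr R b :=
    DiscUnit.not_dvd_discr_of_traceSelfDualAt b hq' hTSD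
  have hunit : IsUnit (Algebra.discr R b) := by
    rw [← IsLocalRing.notMem_maximalIdeal, hmaxR, Ideal.mem_span_singleton]
    exact hdisc
  set G := Algebra.traceMatrix R b with hG
  have hGdet : IsUnit G.det := hunit
  -- the dual basis
  let b' : Fin (Module.finrank R (integralClosure R L)) → integralClosure R L :=
    fun j => ∑ k, G⁻¹ k j • b k
  have hdual : ∀ i j, Algebra.trace R (integralClosure R L) (b i * b' j) =
      if i = j then 1 else 0 := by
    intro i j
    have h1 : Algebra.trace R (integralClosure R L) (b i * b' j) = (G * G⁻¹) i j := by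
      simp only [b', Finset.mul_sum, mul_smul_comm, map_sum, map_smul, smul_eq_mul,
        Matrix.mul_apply]
      refine Finset.sum_congr rfl fun k _ => ?_
      rw [hG, Algebra.traceMatrix_apply, Algebra.traceForm_apply, mul_comm]
    rw [h1, Matrix.mul_nonsing_inv G hGdet, Matrix.one_apply]
  have hdualK : ∀ i j, Algebra.trace K L ((b i : L) * (b' j : L)) =
      if i = j then 1 else 0 := by
    intro i j
    have h1 := DiscUnit.algebraMap_trace_eq (R := R) (C := integralClosure R L) (K := K) (L := L)
      (b i * b' j)
    have h2 : algebraMap (integralClosure R L) L (b i * b' j) = (b i : L) * (b' j : L) := rfl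
    rw [h2] at h1
    rw [← h1, hdual]
    split_ifs <;> simp
  -- clear denominators
  have hscale : ∀ c : integralClosure R L, ∃ s : A, s ∉ x ∧
      IsIntegral A (algebraMap A L s * (c : L)) := by
    intro c
    obtain ⟨⟨s, hs⟩, hsX⟩ :=
      IsIntegral.exists_multiple_integral_of_isLocalization x.primeCompl (c : L) c.2
    refine ⟨s, hs, ?_⟩
    have e : (⟨s, hs⟩ : x.primeCompl) • (c : L) = algebraMap A L s * (c : L) := by
      rw [Submonoid.smul_def, Algebra.smul_def]
    rwa [e] at hsX
  choose s hsx hsint using hscale
  set T : A := (∏ i, s (b i)) * (∏ j, s (b' j)) with hT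
  have hTx : T ∉ x := by
    intro hmem
    rcases hxprime.mem_or_mem hmem with h1 | h1
    · obtain ⟨i, -, hi⟩ := (hxprime.prod_mem_iff).mp h1
      exact hsx _ hi
    · obtain ⟨j, -, hj⟩ := (hxprime.prod_mem_iff).mp h1
      exact hsx _ hj
  have hT2x : T ^ 2 ∉ x := fun hmem => hTx (hxprime.mem_of_pow_mem 2 hmem)
  have hbi : ∀ i, IsIntegral A (algebraMap A L T * (b i : L)) := by
    intro i
    obtain ⟨c, hc⟩ : s (b i) ∣ T :=
      Dvd.dvd.mul_right (Finset.dvd_prod_of_mem _ (Finset.mem_univ i)) _
    have : algebraMap A L T * (b i : L) = algebraMap A L c * (algebraMap A L (s (b i)) * (b i : L)) := by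
      rw [hc, map_mul]; ring
    rw [this]
    exact isIntegral_algebraMap.mul (hsint _)
  have hbj : ∀ j, IsIntegral A (algebraMap A L T * (b' j : L)) := by
    intro j
    obtain ⟨c, hc⟩ : s (b' j) ∣ T :=
      Dvd.dvd.mul_left (Finset.dvd_prod_of_mem _ (Finset.mem_univ j)) _
    have : algebraMap A L T * (b' j : L) =
        algebraMap A L c * (algebraMap A L (s (b' j)) * (b' j : L)) := by
      rw [hc, map_mul]; ring
    rw [this]
    exact isIntegral_algebraMap.mul (hsint _)
  have hrank : Module.finrank R (integralClosure R L) = Module.finrank K L := by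
    have bK := b.localizationLocalization K (nonZeroDivisors R) L
    rw [Module.finrank_eq_card_basis bK, Fintype.card_fin]
  refine ⟨_, fun i => algebraMap A L T * (b i : L), fun j => algebraMap A L T * (b' j : L),
    T ^ 2, hrank, fun hdvd => hT2x (Ideal.mem_span_singleton.mpr hdvd), hbi, hbj, ?_⟩
  intro i j
  have h1 : algebraMap A L T * (b i : L) * (algebraMap A L T * (b' j : L)) =
      algebraMap K L (algebraMap A K (T ^ 2)) * ((b i : L) * (b' j : L)) := by
    rw [← IsScalarTower.algebraMap_apply A K L, map_pow]; ring
  rw [h1, ← Algebra.smul_def, map_smul, hdualK, smul_eq_mul]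
  split_ifs <;> simp

end Fermat.Agent.S30.Model.BranchAlt
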