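import Mathlib
import Fermat.Agent.S30.Model.BranchAlt.DualFamily
import Fermat.Agent.Lib.UnitDiscBC
import Fermat.Agent.Lib.NormalFree

/-!
# Base change of field-trace self-duality (no tameness, no residue field hypothesis)

`L / K` and `L' / K'` finite separable, `K → K'`, `L → L'` compatible, `L' = K' · L`.
`A ⊆ K`, `A' ⊆ K'` integrally closed with fraction fields `K`, `K'`, `φ : A → A'` compatible.
`q` a prime element of `A`, `q'` a prime element of `A'` lying over it (`q' ∣ φ a → q ∣ a`).

`tsdField_baseChange` : `TSDField A K L q → TSDField A' K' L' q'`.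

Proof: a family `β` with scaled trace-dual family `β'` (`DualFamily`), the identity
`t x' = ∑ⱼ Tr_{L'/K'}(x' βⱼ) β'ⱼ` in `L'` (embeddings; `L'` is only a quotient of `L ⊗ K'`), and the
key lemma of `NormalFree`.
-/

set_option autoImplicit false

namespace Fermat.Agent.S30.Model.BranchAlt

open Fermat.Agent.S30.Model Fermat.Agent.Lib

section Core

variable {K L K' L' : Type*} [Field K] [Field L] [Algebra K L] [FiniteDimensional K L]
  [Algebra.IsSeparable K L]
  [Field K'] [Field L'] [Algebra K' L'] [FiniteDimensional K' L'] [Algebra.IsSeparable K' L']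
  [Algebra K K'] [Algebra L L'] [Algebra K L'] [IsScalarTower K L L'] [IsScalarTower K K' L']

/-- Expansion of an element of the compositum `L' = K' · L` along a family of `L` with a scaled
trace-dual family, using the trace of `L' / K'`. -/
theorem smul_eq_sum_trace_mul (hgen : Algebra.adjoin K' (Set.range (algebraMap L L')) = ⊤)
    {n : ℕ} (hn : n = Module.finrank K L) (β β' : Fin n → L) (t : K) (ht : t ≠ 0)
    (hdual : ∀ i j, Algebra.trace K L (β i * β' j) = if i = j then t else 0) (x' : L') :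
    algebraMap K L' t * x' =
      ∑ j, algebraMap K' L' (Algebra.trace K' L' (x' * algebraMap L L' (β j))) *
        algebraMap L L' (β' j) := by
  classical
  let Ω := AlgebraicClosure L'
  have hcard : Fintype.card (Fin n) = Fintype.card (L →ₐ[K] Ω) := by
    rw [Fintype.card_fin, AlgHom.card K L Ω, hn]
  let e : Fin n ≃ (L →ₐ[K] Ω) := Fintype.equivOfCardEq hcard
  set tΩ : Ω := algebraMap K Ω t with htΩ
  have htΩ0 : tΩ ≠ 0 := (map_ne_zero_iff _ (algebraMap K Ω).injective).mpr ht
  let P : Matrix (Fin n) (L →ₐ[K] Ω) Ω := fun i τ => τ (β i)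
  let Q : Matrix (L →ₐ[K] Ω) (Fin n) Ω := fun τ j => τ (β' j)
  have hPQ : (tΩ⁻¹ • P) * Q = 1 := by
    ext i j
    rw [Matrix.smul_mul, Matrix.smul_apply, Matrix.mul_apply, Matrix.one_apply, smul_eq_mul]
    have h1 : ∑ τ : L →ₐ[K] Ω, P i τ * Q τ j = algebraMap K Ω (Algebra.trace K L (β i * β' j)) := by
      rw [trace_eq_sum_embeddings (E := Ω)]
      refine Finset.sum_congr rfl fun τ _ => ?_
      simp only [P, Q, map_mul]
    rw [h1, hdual]
    split_ifs with hij
    · rw [← htΩ, inv_mul_cancel₀ htΩ0]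
    · rw [map_zero, mul_zero]
  have hQP : Q * (tΩ⁻¹ • P) = 1 := (Matrix.mul_eq_one_comm_of_equiv e).mp hPQ
  have hQP' : ∀ τ τ' : L →ₐ[K] Ω, ∑ j, τ (β' j) * τ' (β j) = if τ = τ' then tΩ else 0 := by
    intro τ τ'
    have h1 := congrFun (congrFun hQP τ) τ'
    rw [Matrix.mul_smul, Matrix.smul_apply, Matrix.mul_apply, Matrix.one_apply, smul_eq_mul] at h1
    have h2 : ∑ j, τ (β' j) * τ' (β j) = tΩ * (tΩ⁻¹ * ∑ j, Q τ j * P j τ') := by
      rw [← mul_assoc, mul_inv_cancel₀ htΩ0, one_mul]
    rw [h2, h1]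
    split_ifs <;> simp
  -- apply the canonical embedding
  apply (algebraMap L' Ω).injective
  let σ₀ : L' →ₐ[K'] Ω := IsScalarTower.toAlgHom K' L' Ω
  have hσ₀ : ∀ y : L', algebraMap L' Ω y = σ₀ y := fun y => rfl
  have hres : ∀ (σ : L' →ₐ[K'] Ω) (y : L), σ (algebraMap L L' y) = UnitDiscBC.resHom (K := K) σ y :=
    fun σ y => rfl
  rw [map_mul, map_sum]
  have h3 : ∀ j, algebraMap L' Ω (algebraMap K' L' (Algebra.trace K' L' (x' * algebraMap L L' (β j))) *
      algebraMap L L' (β' j)) =
      ∑ σ : L' →ₐ[K'] Ω, σ x' * (UnitDiscBC.resHom (K := K) σ (β j) *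
        UnitDiscBC.resHom (K := K) σ₀ (β' j)) := by
    intro j
    rw [map_mul, ← IsScalarTower.algebraMap_apply K' L' Ω, trace_eq_sum_embeddings (E := Ω),
      Finset.sum_mul]
    refine Finset.sum_congr rfl fun σ _ => ?_
    rw [map_mul, hres, hσ₀, hres, mul_assoc]
  rw [Finset.sum_congr rfl fun j _ => h3 j, Finset.sum_comm]
  have h4 : ∀ σ : L' →ₐ[K'] Ω, ∑ j, σ x' * (UnitDiscBC.resHom (K := K) σ (β j) *
      UnitDiscBC.resHom (K := K) σ₀ (β' j)) = if σ = σ₀ then tΩ * σ₀ x' else 0 := by
    intro σ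
    rw [← Finset.mul_sum]
    have h5 : ∑ j, UnitDiscBC.resHom (K := K) σ (β j) * UnitDiscBC.resHom (K := K) σ₀ (β' j) =
        if UnitDiscBC.resHom (K := K) (L := L) σ₀ = UnitDiscBC.resHom (K := K) (L := L) σ
          then tΩ else 0 := by
      rw [← hQP']
      exact Finset.sum_congr rfl fun j _ => mul_comm _ _
    rw [h5]
    by_cases hσ : σ = σ₀
    · subst hσ
      simp [mul_comm]
    · have hne : UnitDiscBC.resHom (K := K) (L := L) σ₀ ≠
          UnitDiscBC.resHom (K := K) (L := L) σ := fun heq =>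
        hσ (UnitDiscBC.resHom_injective hgen heq).symm
      simp [hσ, hne]
  rw [Finset.sum_congr rfl fun σ _ => h4 σ, Finset.sum_ite_eq' Finset.univ σ₀,
    if_pos (Finset.mem_univ _), ← IsScalarTower.algebraMap_apply K L' Ω t]
  rfl

end Core

/-- **Base change of `TSDField`.** -/
theorem tsdField_baseChange
    {A K L A' K' L' : Type*} [CommRing A] [IsDomain A] [IsNoetherianRing A] [IsIntegrallyClosed A]
    [Field K] [Algebra A K] [IsFractionRing A K] [Field L] [Algebra K L] [Algebra A L]
    [IsScalarTower A K L] [FiniteDimensional K L] [Algebra.IsSeparable K L]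
    [CommRing A'] [IsDomain A'] [IsIntegrallyClosed A'] [Field K'] [Algebra A' K']
    [IsFractionRing A' K'] [Field L'] [Algebra K' L'] [Algebra A' L'] [IsScalarTower A' K' L']
    [FiniteDimensional K' L'] [Algebra.IsSeparable K' L']
    [Algebra K K'] [Algebra L L'] [Algebra K L'] [IsScalarTower K L L'] [IsScalarTower K K' L']
    (φ : A →+* A') (hφ : ∀ a, algebraMap A' K' (φ a) = algebraMap K K' (algebraMap A K a))
    (hgen : Algebra.adjoin K' (Set.range (algebraMap L L')) = ⊤)
    {q : A} (hq : Prime q) {q' : A'} (hq' : Prime q') (hover : ∀ a : A, q' ∣ φ a → q ∣ a)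
    (h : LocalDisc.TSDField A K L q) : LocalDisc.TSDField A' K' L' q' := by
  obtain ⟨n, β, β', t, hn, hqt, hβ, hβ', hdual⟩ := exists_dual_family hq h
  have hφL : ∀ a : A, algebraMap A' L' (φ a) = algebraMap L L' (algebraMap A L a) := by
    intro a
    rw [IsScalarTower.algebraMap_apply A' K' L', hφ, ← IsScalarTower.algebraMap_apply K K' L',
      IsScalarTower.algebraMap_apply K L L', ← IsScalarTower.algebraMap_apply A K L]
  have hint : ∀ y : L, IsIntegral A y → IsIntegral A' (algebraMap L L' y) := by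
    rintro y ⟨p, hp, hpy⟩
    refine ⟨p.map φ, hp.map φ, ?_⟩
    have hcomp : (algebraMap A' L').comp φ = (algebraMap L L').comp (algebraMap A L) :=
      RingHom.ext hφL
    rw [Polynomial.eval₂_map, hcomp, ← Polynomial.hom_eval₂, hpy, map_zero]
  have ht0 : algebraMap A K t ≠ 0 := by
    intro h0
    have h1 : t = 0 := IsFractionRing.injective A K (by rw [h0, map_zero])
    exact hqt (h1 ▸ dvd_zero q)
  intro x' hx' hxy'
  have htr : ∀ j, ∃ a : A', Algebra.trace K' L' (x' * algebraMap L L' (β j)) =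
      algebraMap A' K' (q' * a) := fun j => hxy' _ (hint _ (hβ j))
  choose a ha using htr
  have hF := smul_eq_sum_trace_mul hgen hn β β' (algebraMap A K t) ht0 hdual x'
  set z0 : L' := ∑ j, algebraMap A' L' (a j) * algebraMap L L' (β' j) with hz0
  have hz0int : IsIntegral A' z0 :=
    IsIntegral.sum _ fun j _ => isIntegral_algebraMap.mul (hint _ (hβ' j))
  have heq : φ t • x' = q' • z0 := by
    rw [Algebra.smul_def, Algebra.smul_def, hφL, IsScalarTower.algebraMap_apply A K L,
      ← IsScalarTower.algebraMap_apply K L L', hF, hz0, Finset.mul_sum]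
    refine Finset.sum_congr rfl fun j _ => ?_
    rw [ha, ← IsScalarTower.algebraMap_apply A' K' L', map_mul, mul_assoc]
  have hqt' : ¬ q' ∣ φ t := fun hd => hqt (hover t hd)
  obtain ⟨y, hy, hxy⟩ := NormalFree.exists_isIntegral_smul_eq K' hq' hqt' hx' hz0int heq
  exact ⟨y, hy, by rw [hxy, Algebra.smul_def]⟩

end Fermat.Agent.S30.Model.BranchAlt
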