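import Mathlib
import Fermat.Agent.S30.Model.ChartInst

/-!
# Kummer cover of a chart: `B[w] → B[s]`, `s ^ e = w`

`L → L'` fields, `w : L`, `s : L'` with `s ^ e = w`.  For a base ring `B` (`O` or `E`):
the ring map `phi : B[w] → B[s]`, its description on polynomials (`expand`), integrality of
`B[s]` over `B[w]`, transcendence of `s`, and `L' = L(s) ⇒ L' = K' · L` for `s ∈ K'`.
-/

set_option autoImplicit false

open Polynomial

namespace Fermat.Agent.S30.Model.BranchAlt

section Phi

variable (B : Type*) {L L' : Type*} [CommRing B] [Field L] [Algebra B L] [Field L']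
  [Algebra L L'] [Algebra B L'] [IsScalarTower B L L'] {w : L} {s : L'} {e : ℕ}

theorem algebraMap_mem_adjoin (hs : s ^ e = algebraMap L L' w) {a : L}
    (ha : a ∈ Algebra.adjoin B {w}) : algebraMap L L' a ∈ Algebra.adjoin B {s} := by
  have h1 : (Algebra.adjoin B {w}).map (IsScalarTower.toAlgHom B L L') ≤ Algebra.adjoin B {s} := by
    rw [AlgHom.map_adjoin, Set.image_singleton]
    apply Algebra.adjoin_le
    rw [Set.singleton_subset_iff]
    show algebraMap L L' w ∈ _
    rw [← hs]
    exact pow_mem (Algebra.self_mem_adjoin_singleton B s) e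
  exact h1 ⟨a, ha, rfl⟩

/-- The ring map `B[w] → B[s]` induced by `L → L'`. -/
noncomputable def phi (hs : s ^ e = algebraMap L L' w) :
    Algebra.adjoin B {w} →+* Algebra.adjoin B {s} where
  toFun a := ⟨algebraMap L L' a, algebraMap_mem_adjoin B hs a.2⟩
  map_one' := Subtype.ext (by simp)
  map_mul' x y := Subtype.ext (by simp)
  map_zero' := Subtype.ext (by simp)
  map_add' x y := Subtype.ext (by simp)

@[simp]
theorem coe_phi (hs : s ^ e = algebraMap L L' w) (a : Algebra.adjoin B {w}) :
    ((phi B hs a : Algebra.adjoin B {s}) : L') = algebraMap L L' (a : L) := rfl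

theorem phi_polyEquiv (hs : s ^ e = algebraMap L L' w) (hw : Transcendental B w)
    (hsT : Transcendental B s) (P : B[X]) :
    phi B hs (ChartInst.polyEquiv B w hw P) = ChartInst.polyEquiv B s hsT (expand B e P) := by
  apply Subtype.ext
  rw [coe_phi, ChartInst.coe_polyEquiv, ChartInst.coe_polyEquiv, expand_aeval, hs]
  exact (aeval_algebraMap_apply L' w P).symm

theorem transcendental_root [IsDomain B] (hs : s ^ e = algebraMap L L' w)
    (hw : Transcendental B w) : Transcendental B s := by
  intro halg
  apply hw
  have h1 : IsAlgebraic B (algebraMap L L' w) := hs ▸ halg.pow e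
  exact (isAlgebraic_algebraMap_iff (algebraMap L L').injective).mp h1

theorem isIntegral_of_mem_adjoin (hs : s ^ e = algebraMap L L' w) (he : e ≠ 0) {y : L'}
    (hy : y ∈ Algebra.adjoin B {s}) : IsIntegral (Algebra.adjoin B {w}) y := by
  induction hy using Algebra.adjoin_induction with
  | mem x hx =>
    rw [Set.mem_singleton_iff] at hx
    subst hx
    refine ⟨X ^ e - C ⟨w, Algebra.self_mem_adjoin_singleton B w⟩, monic_X_pow_sub_C _ he, ?_⟩
    rw [eval₂_sub, eval₂_X_pow, eval₂_C, hs]
    exact sub_self _
  | algebraMap r =>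
    have h1 : algebraMap B L' r =
        algebraMap (Algebra.adjoin B {w}) L' (algebraMap B (Algebra.adjoin B {w}) r) :=
      IsScalarTower.algebraMap_apply B (Algebra.adjoin B {w}) L' r
    rw [h1]
    exact isIntegral_algebraMap
  | add x y _ _ hx hy => exact hx.add hy
  | mul x y _ _ hx hy => exact hx.mul hy

/-- Integral over `B[s]` implies integral over `B[w]`. -/
theorem isIntegral_cover (hs : s ^ e = algebraMap L L' w) (he : e ≠ 0) {y : L'}
    (hy : IsIntegral (Algebra.adjoin B {s}) y) : IsIntegral (Algebra.adjoin B {w}) y := by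
  let _ : Algebra (Algebra.adjoin B {w}) (Algebra.adjoin B {s}) := (phi B hs).toAlgebra
  have : IsScalarTower (Algebra.adjoin B {w}) (Algebra.adjoin B {s}) L' :=
    IsScalarTower.of_algebraMap_eq fun a => rfl
  have : Algebra.IsIntegral (Algebra.adjoin B {w}) (Algebra.adjoin B {s}) := ⟨fun a' => by
    have h1 : IsIntegral (Algebra.adjoin B {w}) (a' : L') := isIntegral_of_mem_adjoin B hs he a'.2
    exact (isIntegral_algebraMap_iff (A := Algebra.adjoin B {s}) (B := L')
      Subtype.val_injective).mp h1⟩
  exact isIntegral_trans y hy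

/-- Integral over `B[w]` implies integral over `B[s]`. -/
theorem isIntegral_cover' (hs : s ^ e = algebraMap L L' w) {y : L'}
    (hy : IsIntegral (Algebra.adjoin B {w}) y) : IsIntegral (Algebra.adjoin B {s}) y := by
  let _ : Algebra (Algebra.adjoin B {w}) (Algebra.adjoin B {s}) := (phi B hs).toAlgebra
  have : IsScalarTower (Algebra.adjoin B {w}) (Algebra.adjoin B {s}) L' :=
    IsScalarTower.of_algebraMap_eq fun a => rfl
  exact hy.tower_top

end Phi

section Gen

variable {E L L' : Type*} [Field E] [Field L] [Field L'] [Algebra L L'] [Algebra E L']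

/-- `L' = L[s]` and `s ∈ K'` imply `L' = K' · L`. -/
theorem adjoin_range_eq_top (K' : IntermediateField E L') {s : L'} (hsK' : s ∈ K')
    (hgen : Algebra.adjoin L ({s} : Set L') = ⊤) :
    Algebra.adjoin K' (Set.range (algebraMap L L')) = ⊤ := by
  rw [eq_top_iff]
  rintro z -
  have hz : z ∈ Algebra.adjoin L ({s} : Set L') := hgen ▸ Algebra.mem_top
  induction hz using Algebra.adjoin_induction with
  | mem x hx =>
    rw [Set.mem_singleton_iff] at hx
    subst hx
    exact Subalgebra.algebraMap_mem _ (⟨x, hsK'⟩ : K')
  | algebraMap r => exact Algebra.subset_adjoin ⟨r, rfl⟩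
  | add x y _ _ hx hy => exact add_mem hx hy
  | mul x y _ _ hx hy => exact mul_mem hx hy

end Gen

section AlgAdjoin

variable (B E : Type*) {L' : Type*} [CommRing B] [Field E] [Algebra B E] [Field L'] [Algebra E L']
  [Algebra B L'] [IsScalarTower B E L'] (s : L')

/-- The algebra structure `B[s] → E(s)` (to be used as a local instance). -/
noncomputable def algAdjoin :
    Algebra (Algebra.adjoin B {s}) (IntermediateField.adjoin E {s}) :=
  (ChartInst.incl B s (IntermediateField.adjoin E {s})
    (IntermediateField.mem_adjoin_simple_self E s)).toAlgebra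

attribute [local instance] algAdjoin

theorem isScalarTower_algAdjoin :
    IsScalarTower (Algebra.adjoin B {s}) (IntermediateField.adjoin E {s}) L' :=
  ChartInst.isScalarTower_incl B s _ (IntermediateField.mem_adjoin_simple_self E s)

theorem isFractionRing_algAdjoin [IsDomain B] [IsFractionRing B E] :
    IsFractionRing (Algebra.adjoin B {s}) (IntermediateField.adjoin E {s}) :=
  ChartInst.isFractionRing_incl B s _ (IntermediateField.mem_adjoin_simple_self E s) le_rfl

theorem coe_algebraMap_algAdjoin (a : Algebra.adjoin B {s}) :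
    ((algebraMap (Algebra.adjoin B {s}) (IntermediateField.adjoin E {s}) a :
      IntermediateField.adjoin E {s}) : L') = (a : L') := rfl

end AlgAdjoin

end Fermat.Agent.S30.Model.BranchAlt
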