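import Mathlib

/-!
# The prime of `O[w]` below a horizontal prime of `O[s]`, `w = s ^ e`

`O` a UFD with fraction field `E`, `P ∈ O[X]` primitive and irreducible over `E`, `P ≁ X`.
Then there is a prime element `G ∈ O[X]`, `G ≁ X`, such that for all `a ∈ O[X]`:
`P ∣ a(X ^ e) → G ∣ a`, and `P ∣ G(X ^ e)`.  (`G` = primitive minimal polynomial of `β ^ e`,
`β` a root of `P`.)
-/

set_option autoImplicit false

open Polynomial

namespace Fermat.Agent.S30.Model.BranchAlt

variable {O E : Type*} [CommRing O] [IsDomain O] [NormalizedGCDMonoid O]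
  [UniqueFactorizationMonoid O] [Field E] [Algebra O E] [IsFractionRing O E]

theorem exists_prime_below (e : ℕ) (he : e ≠ 0) (P : O[X]) (hprim : P.IsPrimitive)
    (hirr : Irreducible (P.map (algebraMap O E))) (hX : ¬ Associated P X) :
    ∃ G : O[X], Prime G ∧ ¬ Associated G X ∧ (∀ a : O[X], P ∣ expand O e a → G ∣ a) ∧
      P ∣ expand O e G := by
  classical
  set f : E[X] := P.map (algebraMap O E) with hf
  have : Fact (Irreducible f) := ⟨hirr⟩
  let F := AdjoinRoot f
  let β : F := AdjoinRoot.root f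
  have hf0 : f ≠ 0 := hirr.ne_zero
  have hfin : Module.Finite E F := (AdjoinRoot.powerBasis hf0).finite
  obtain ⟨θ, hθ⟩ : ∃ θ : F, θ = β ^ e := ⟨_, rfl⟩
  have hθint : IsIntegral E θ := Algebra.IsIntegral.isIntegral θ
  obtain ⟨g, hg⟩ : ∃ g : E[X], g = minpoly E θ := ⟨_, rfl⟩
  have hgirr : Irreducible g := hg ▸ minpoly.irreducible hθint
  have hgθ : aeval θ g = 0 := hg ▸ minpoly.aeval E θ
  have hgdvd : ∀ p : E[X], aeval θ p = 0 → g ∣ p := fun p hp => hg ▸ minpoly.dvd E θ hp
  -- root criterion in `F`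
  have hroot : ∀ p : E[X], aeval β p = 0 ↔ f ∣ p := by
    intro p
    rw [AdjoinRoot.aeval_eq, AdjoinRoot.mk_eq_zero]
  -- primitive version of `g`
  obtain ⟨b, hb, hG0⟩ := IsLocalization.integerNormalization_spec (nonZeroDivisors O) g
  obtain ⟨G0, hG0def⟩ : ∃ G0 : O[X], G0 = IsLocalization.integerNormalization (nonZeroDivisors O) g :=
    ⟨_, rfl⟩
  rw [← hG0def] at hG0
  have hbE : algebraMap O E b ≠ 0 := IsFractionRing.to_map_ne_zero_of_mem_nonZeroDivisors hb
  have hG0map : G0.map (algebraMap O E) = C (algebraMap O E b) * g := by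
    rw [hG0, Algebra.smul_def, Polynomial.algebraMap_apply]
  have hG0ne : G0 ≠ 0 := by
    intro h0
    rw [h0, Polynomial.map_zero] at hG0map
    exact (mul_ne_zero (C_ne_zero.mpr hbE) hgirr.ne_zero) hG0map.symm
  obtain ⟨G, hGdef⟩ : ∃ G : O[X], G = G0.primPart := ⟨_, rfl⟩
  have hGprim : G.IsPrimitive := hGdef ▸ isPrimitive_primPart G0
  have hcont : G0.content ≠ 0 := content_eq_zero_iff.not.mpr hG0ne
  have hcE : algebraMap O E G0.content ≠ 0 :=
    (map_ne_zero_iff _ (IsFractionRing.injective O E)).mpr hcont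
  have hGmap : C (algebraMap O E G0.content) * G.map (algebraMap O E) =
      C (algebraMap O E b) * g := by
    rw [← hG0map, hGdef]
    conv_rhs => rw [eq_C_content_mul_primPart G0]
    rw [Polynomial.map_mul, map_C]
  -- `G.map` and `g` are associated
  have hassoc : Associated (G.map (algebraMap O E)) g := by
    obtain ⟨u1, hu1⟩ : IsUnit (C (algebraMap O E G0.content) : E[X]) :=
      isUnit_C.mpr (IsUnit.mk0 _ hcE)
    obtain ⟨u2, hu2⟩ : IsUnit (C (algebraMap O E b) : E[X]) := isUnit_C.mpr (IsUnit.mk0 _ hbE)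
    rw [← hu1, ← hu2] at hGmap
    refine ⟨u1 * u2⁻¹, ?_⟩
    rw [Units.val_mul, ← mul_assoc, mul_comm _ (u1 : E[X]), hGmap, mul_comm (u2 : E[X]) g,
      mul_assoc, Units.mul_inv, mul_one]
  have hGirrE : Irreducible (G.map (algebraMap O E)) := hassoc.symm.irreducible hgirr
  have hGirr : Irreducible G :=
    (hGprim.irreducible_iff_irreducible_map_fraction_map (K := E)).mpr hGirrE
  have hGprime : Prime G := UniqueFactorizationMonoid.irreducible_iff_prime.mp hGirr
  refine ⟨G, hGprime, ?_, ?_, ?_⟩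
  · -- `G ≁ X`
    intro hGX
    apply hX
    have h1 : Associated g (X : E[X]) := by
      have h2 : Associated (G.map (algebraMap O E)) ((X : O[X]).map (algebraMap O E)) :=
        hGX.map (mapRingHom (algebraMap O E))
      rw [Polynomial.map_X] at h2
      exact hassoc.symm.trans h2
    have h3 : aeval θ (X : E[X]) = 0 := by
      obtain ⟨c, hc⟩ := h1.dvd
      rw [hc, map_mul, hgθ, zero_mul]
    rw [aeval_X, hθ] at h3
    have hβ0 : β = 0 := pow_eq_zero_iff he |>.mp h3
    have h4 : f ∣ X := by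
      rw [← hroot, aeval_X]; exact hβ0
    have h5 : P ∣ X := by
      apply hprim.dvd_of_fraction_map_dvd_fraction_map (K := E)
      rw [Polynomial.map_X]; exact h4
    obtain ⟨Q, hQ⟩ := h5
    rcases (irreducible_X (R := O)).isUnit_or_isUnit hQ with h6 | h6
    · exfalso
      apply hirr.not_isUnit
      rw [hf]
      exact h6.map (mapRingHom (algebraMap O E))
    · obtain ⟨v, rfl⟩ := h6
      exact ⟨v, hQ.symm⟩
  · -- `P ∣ a(X^e) → G ∣ a`
    intro a ha
    apply hGprim.dvd_of_fraction_map_dvd_fraction_map (K := E)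
    refine hassoc.dvd.trans ?_
    apply hgdvd
    have h1 : f ∣ (expand O e a).map (algebraMap O E) := by
      rw [hf]; exact Polynomial.map_dvd _ ha
    rw [map_expand, ← hroot, expand_aeval] at h1
    rw [hθ]
    exact h1
  · -- `P ∣ G(X^e)`
    apply hprim.dvd_of_fraction_map_dvd_fraction_map (K := E)
    rw [map_expand]
    show f ∣ _
    rw [← hroot, expand_aeval]
    obtain ⟨c, hc⟩ := hassoc.symm.dvd
    rw [hc, map_mul, ← hθ, hgθ, zero_mul]

/-- Constant terms: if `P ∣ G(X ^ e)` then `P(0) ∣ G(0)`. -/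
theorem coeff_zero_dvd_of_dvd_expand {R : Type*} [CommRing R] (e : ℕ) (he : 0 < e) {P G : R[X]}
    (h : P ∣ expand R e G) : P.coeff 0 ∣ G.coeff 0 := by
  obtain ⟨H, hH⟩ := h
  have h1 : (expand R e G).coeff (0 * e) = G.coeff 0 := coeff_expand_mul he G 0
  rw [zero_mul, hH, mul_coeff_zero] at h1
  exact ⟨H.coeff 0, h1.symm⟩

end Fermat.Agent.S30.Model.BranchAlt
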