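import Mathlib
import Fermat.Agent.S30.Model.LocalDomain
import Fermat.Agent.S30.Model.Descent

/-!
# Local descent of "locally a domain modulo `π`" along an integral extension

`C ⊆ C'` an integral extension of domains, `C` integrally closed, `π : C`, `M` a maximal ideal
of `C` containing `π`.  If `C'` is locally a domain modulo `π` (`LocalDomain.LDAt`) at EVERY
maximal ideal `M'` of `C'` lying over `M`, then `C` is locally a domain modulo `π` at `M`.

Unlike `Descent.sup_eq_top_of_goingDown` this is local at `M`: nothing is assumed at the maximal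
ideals of `C'` which do not lie over `M`.  (Branch point case of the MODEL THEOREM in global
chart form: `C'` = integral closure of `O[s]`, `s ^ e = u - c`; the hypothesis is only available
at the maximal ideals containing `s`.)

Ingredients: going-down (Mathlib instance for an integrally closed base), lying-over for the
integral map `C → C' ⧸ I'`, and prime avoidance for multiplicative sets.
-/

set_option autoImplicit false

namespace Fermat.Agent.S30.Model.BranchAlt

open Fermat.Agent.S30.Model.LocalDomain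

section MinPrime

variable {R : Type*} [CommRing R]

/-- Elements of a minimal prime `Q` over `I` are nilpotent modulo `I` locally at `Q`. -/
theorem exists_mul_pow_mem_of_mem_minimalPrimes {I Q : Ideal R} (hQ : Q ∈ I.minimalPrimes)
    {a : R} (ha : a ∈ Q) : ∃ b, b ∉ Q ∧ ∃ k : ℕ, b * a ^ k ∈ I := by
  classical
  have hQp : Q.IsPrime := hQ.1.1
  have h1 : (1 : R) ∉ Q := fun h => hQp.ne_top ((Ideal.eq_top_iff_one _).mpr h)
  by_contra hcon
  push Not at hcon
  let S : Submonoid R :=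
    { carrier := {x | ∃ b, b ∉ Q ∧ ∃ k : ℕ, x = b * a ^ k}
      mul_mem' := by
        rintro _ _ ⟨b, hb, k, rfl⟩ ⟨b', hb', k', rfl⟩
        exact ⟨b * b', fun h => (hQp.mem_or_mem h).elim hb hb', k + k', by ring⟩
      one_mem' := ⟨1, h1, 0, by simp⟩ }
  have hdisj : Disjoint (I : Set R) S := by
    rw [Set.disjoint_left]
    rintro x hxI ⟨b, hb, k, rfl⟩
    exact hcon b hb k hxI
  obtain ⟨P, hP, hIP, hPS⟩ := Ideal.exists_le_prime_disjoint I S hdisj
  have hPQ : P ≤ Q := by
    intro x hx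
    by_contra hxQ
    exact Set.disjoint_left.mp hPS hx ⟨x, hxQ, 0, by simp⟩
  have hQP : Q ≤ P := hQ.2 ⟨hP, hIP⟩ hPQ
  exact Set.disjoint_left.mp hPS (hQP ha) ⟨1, h1, 1, by simp⟩

/-- If `R` is locally a domain modulo `p` at `M`, at most one minimal prime over `p` lies in
`M`. -/
theorem minimalPrimes_unique_of_ldAt {p : R} {M : Ideal R} (h : LDAt p M)
    {Q₁ Q₂ : Ideal R} (h₁ : Q₁ ∈ (Ideal.span {p}).minimalPrimes)
    (h₂ : Q₂ ∈ (Ideal.span {p}).minimalPrimes) (h₁M : Q₁ ≤ M) (h₂M : Q₂ ≤ M) : Q₁ = Q₂ := by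
  by_contra hne
  have hQ₁ : Q₁.IsPrime := h₁.1.1
  have hQ₂ : Q₂.IsPrime := h₂.1.1
  have hnle : ¬ Q₁ ≤ Q₂ := fun hle => hne (le_antisymm hle (h₂.2 h₁.1 hle))
  obtain ⟨a, haQ₁, haQ₂⟩ := Set.not_subset.mp hnle
  obtain ⟨b, hb, k, hbk⟩ := exists_mul_pow_mem_of_mem_minimalPrimes h₁ haQ₁
  have hdvd : p ∣ a ^ k * b := by
    rw [mul_comm]; exact Ideal.mem_span_singleton.mp hbk
  obtain ⟨t, ht, hd | hd⟩ := h (a ^ k) b hdvd
  · have h3 : t * a ^ k ∈ Q₂ := h₂.1.2 (Ideal.mem_span_singleton.mpr hd)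
    rcases hQ₂.mem_or_mem h3 with h' | h'
    · exact ht (h₂M h')
    · exact haQ₂ (hQ₂.mem_of_pow_mem k h')
  · have h3 : t * b ∈ Q₁ := h₁.1.2 (Ideal.mem_span_singleton.mpr hd)
    rcases hQ₁.mem_or_mem h3 with h' | h'
    · exact ht (h₁M h')
    · exact hb h'

/-- Locally a domain modulo `p` at `M` implies locally reduced modulo `p` at `M`. -/
theorem exists_not_mem_dvd_of_dvd_pow {p : R} {M : Ideal R} (hM : M.IsPrime) (hpM : p ∈ M)
    (h : LDAt p M) : ∀ (k : ℕ) (x : R), p ∣ x ^ k → ∃ t, t ∉ M ∧ p ∣ t * x := by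
  have hnd : ∀ t : R, t ∉ M → ¬ p ∣ t := by
    rintro t ht ⟨c, rfl⟩
    exact ht (M.mul_mem_right c hpM)
  intro k
  induction k with
  | zero =>
    intro x hx
    exfalso
    rw [pow_zero] at hx
    exact hnd 1 (fun h1 => hM.ne_top ((Ideal.eq_top_iff_one _).mpr h1)) hx
  | succ k ih =>
    intro x hx
    rw [pow_succ] at hx
    obtain ⟨t, ht, hd | hd⟩ := h (x ^ k) x hx
    · rcases Nat.eq_zero_or_pos k with rfl | hk
      · exfalso
        rw [pow_zero, mul_one] at hd
        exact hnd t ht hd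
      · have h4 : p ∣ (t * x) ^ k := by
          obtain ⟨k', rfl⟩ := Nat.exists_eq_succ_of_ne_zero hk.ne'
          rw [mul_pow, pow_succ t, mul_assoc]
          exact Dvd.dvd.mul_left hd _
        obtain ⟨t₂, ht₂, hd₂⟩ := ih (t * x) h4
        exact ⟨t₂ * t, fun h' => (hM.mem_or_mem h').elim ht₂ ht, by rwa [mul_assoc]⟩
    · exact ⟨t, ht, hd⟩

end MinPrime

section Integral

variable {C C' : Type*} [CommRing C] [CommRing C'] [Algebra C C'] [Algebra.IsIntegral C C']

/-- An ideal of `C'` contained in no maximal ideal over `M` meets `C ∖ M`. -/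
theorem exists_not_mem_algebraMap_mem (M : Ideal C) [hM : M.IsMaximal] (I' : Ideal C')
    (h : ∀ M' : Ideal C', M'.IsMaximal → M'.comap (algebraMap C C') = M → ¬ I' ≤ M') :
    ∃ t : C, t ∉ M ∧ algebraMap C C' t ∈ I' := by
  by_contra hcon
  push Not at hcon
  have hle : I'.comap (algebraMap C C') ≤ M := fun t ht => by
    by_contra htM
    exact hcon t htM ht
  have hint : Algebra.IsIntegral C (C' ⧸ I') := ⟨fun y => by
    obtain ⟨y', rfl⟩ := Ideal.Quotient.mk_surjective y
    exact (Algebra.IsIntegral.isIntegral (R := C) y').map (Ideal.Quotient.mkₐ C I')⟩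
  have hker : RingHom.ker (algebraMap C (C' ⧸ I')) ≤ M := by
    intro t ht
    apply hle
    rw [Ideal.mem_comap]
    have h0 : Ideal.Quotient.mk I' (algebraMap C C' t) = 0 := ht
    exact Ideal.Quotient.eq_zero_iff_mem.mp h0
  obtain ⟨Q, hQ, hQM⟩ := Ideal.exists_ideal_over_maximal_of_isIntegral (S := C' ⧸ I') M hker
  refine h (Q.comap (Ideal.Quotient.mk I')) ?_ ?_ ?_
  · exact Ideal.comap_isMaximal_of_surjective _ Ideal.Quotient.mk_surjective
  · rw [← hQM]
    rfl
  · intro x hx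
    rw [Ideal.mem_comap, Ideal.Quotient.eq_zero_iff_mem.mpr hx]
    exact Q.zero_mem

variable (π : C) (M : Ideal C) [hM : M.IsMaximal]

include hM in
/-- Local reducedness modulo `π` descends. -/
theorem exists_not_mem_dvd_of_dvd_pow_of_integral
    (hcontr : ∀ x : C, algebraMap C C' π ∣ algebraMap C C' x → π ∣ x) (hπM : π ∈ M)
    (hLD' : ∀ M' : Ideal C', M'.IsMaximal → M'.comap (algebraMap C C') = M →
      LDAt (algebraMap C C' π) M')
    (k : ℕ) (x : C) (hx : π ∣ x ^ k) : ∃ t, t ∉ M ∧ π ∣ t * x := by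
  let I' : Ideal C' :=
    { carrier := {t' | algebraMap C C' π ∣ t' * algebraMap C C' x}
      add_mem' := fun {a b} ha hb => by
        show algebraMap C C' π ∣ (a + b) * algebraMap C C' x
        rw [add_mul]
        exact dvd_add ha hb
      zero_mem' := by
        show algebraMap C C' π ∣ (0 : C') * algebraMap C C' x
        rw [zero_mul]
        exact dvd_zero _
      smul_mem' := fun c a ha => by
        show algebraMap C C' π ∣ (c • a) * algebraMap C C' x
        rw [smul_eq_mul, mul_assoc]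
        exact Dvd.dvd.mul_left ha c }
  have hI' : ∀ M' : Ideal C', M'.IsMaximal → M'.comap (algebraMap C C') = M → ¬ I' ≤ M' := by
    intro M' hM' hMM' hle
    have hπM' : algebraMap C C' π ∈ M' := by
      have h1 : π ∈ M'.comap (algebraMap C C') := hMM' ▸ hπM
      exact h1
    have hx' : algebraMap C C' π ∣ (algebraMap C C' x) ^ k := by
      rw [← map_pow]
      exact map_dvd _ hx
    obtain ⟨t', ht', hd⟩ :=
      exists_not_mem_dvd_of_dvd_pow hM'.isPrime hπM' (hLD' M' hM' hMM') k _ hx'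
    exact ht' (hle hd)
  obtain ⟨t, htM, htI⟩ := exists_not_mem_algebraMap_mem M I' hI'
  refine ⟨t, htM, hcontr _ ?_⟩
  rw [map_mul]
  exact htI

variable [IsDomain C] [IsIntegrallyClosed C] [IsDomain C'] [FaithfulSMul C C']

omit [IsDomain C] in
include hM in
/-- Uniqueness of the minimal prime over `π` inside `M` descends (going-down). -/
theorem minimalPrimes_unique_of_integral
    (hLD' : ∀ M' : Ideal C', M'.IsMaximal → M'.comap (algebraMap C C') = M →
      LDAt (algebraMap C C' π) M')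
    {P₁ P₂ : Ideal C} (h₁ : P₁ ∈ (Ideal.span {π}).minimalPrimes)
    (h₂ : P₂ ∈ (Ideal.span {π}).minimalPrimes) (h₁M : P₁ ≤ M) (h₂M : P₂ ≤ M) : P₁ = P₂ := by
  have hinj := FaithfulSMul.algebraMap_injective C C'
  obtain ⟨M', hM', hMM'⟩ := Ideal.exists_ideal_over_maximal_of_isIntegral (S := C') M
    (by rw [(RingHom.injective_iff_ker_eq_bot _).mp hinj]; exact bot_le)
  have hM'p : M'.IsPrime := hM'.isPrime
  have hP₁ : P₁.IsPrime := h₁.1.1
  have hP₂ : P₂.IsPrime := h₂.1.1
  have hMp : M.IsPrime := hM.isPrime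
  have hlo : M'.LiesOver M := ⟨hMM'.symm⟩
  obtain ⟨Q₁', hQ₁'le, hQ₁'p, hQ₁'lo⟩ :=
    Ideal.exists_ideal_le_liesOver_of_le (p := P₁) (q := M) M' h₁M
  obtain ⟨Q₂', hQ₂'le, hQ₂'p, hQ₂'lo⟩ :=
    Ideal.exists_ideal_le_liesOver_of_le (p := P₂) (q := M) M' h₂M
  obtain ⟨Q₁, hQ₁, hQ₁le, hQ₁c⟩ := Descent.exists_minimal_le π h₁ (Q := Q₁') hQ₁'lo.over.symm
  obtain ⟨Q₂, hQ₂, hQ₂le, hQ₂c⟩ := Descent.exists_minimal_le π h₂ (Q := Q₂') hQ₂'lo.over.symm
  have heq : Q₁ = Q₂ := minimalPrimes_unique_of_ldAt (hLD' M' hM' hMM') hQ₁ hQ₂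
    (hQ₁le.trans hQ₁'le) (hQ₂le.trans hQ₂'le)
  rw [← hQ₁c, ← hQ₂c, heq]

omit [IsDomain C] in
include hM in
/-- **Local descent.** -/
theorem ldAt_of_integral
    (hcontr : ∀ x : C, algebraMap C C' π ∣ algebraMap C C' x → π ∣ x) (hπM : π ∈ M)
    (hLD' : ∀ M' : Ideal C', M'.IsMaximal → M'.comap (algebraMap C C') = M →
      LDAt (algebraMap C C' π) M') : LDAt π M := by
  classical
  intro a b hab
  have hMp : M.IsPrime := hM.isPrime
  have h1M : (1 : C) ∉ M := fun h => hMp.ne_top ((Ideal.eq_top_iff_one _).mpr h)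
  obtain ⟨P, hP, hPM⟩ := Ideal.exists_minimalPrimes_le
    (show Ideal.span {π} ≤ M from (Ideal.span_singleton_le_iff_mem _).mpr hπM)
  have hPp : P.IsPrime := hP.1.1
  have key : ∀ a : C, a ∈ P → ∃ t, t ∉ M ∧ π ∣ t * a := by
    intro a haP
    by_contra hcon
    push Not at hcon
    let S : Submonoid C :=
      { carrier := {x | ∃ t, t ∉ M ∧ ∃ k : ℕ, x = t * a ^ k}
        mul_mem' := by
          rintro _ _ ⟨t, ht, k, rfl⟩ ⟨t', ht', k', rfl⟩
          exact ⟨t * t', fun h => (hMp.mem_or_mem h).elim ht ht', k + k', by ring⟩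
        one_mem' := ⟨1, h1M, 0, by simp⟩ }
    have hdisj : Disjoint ((Ideal.span {π} : Ideal C) : Set C) S := by
      rw [Set.disjoint_left]
      rintro x hx ⟨t, ht, k, rfl⟩
      have hd : π ∣ t * a ^ k := Ideal.mem_span_singleton.mp hx
      have hd' : π ∣ (t * a) ^ k := by
        rcases Nat.eq_zero_or_pos k with rfl | hk
        · exfalso
          rw [pow_zero, mul_one] at hd
          obtain ⟨c, rfl⟩ := hd
          exact ht (M.mul_mem_right c hπM)
        · obtain ⟨k', rfl⟩ := Nat.exists_eq_succ_of_ne_zero hk.ne'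
          rw [mul_pow, pow_succ t, mul_assoc]
          exact Dvd.dvd.mul_left hd _
      obtain ⟨t₂, ht₂, hd₂⟩ :=
        exists_not_mem_dvd_of_dvd_pow_of_integral π M hcontr hπM hLD' k (t * a) hd'
      exact hcon (t₂ * t) (fun h => (hMp.mem_or_mem h).elim ht₂ ht) (by rwa [mul_assoc])
    obtain ⟨Q, hQ, hIQ, hQS⟩ := Ideal.exists_le_prime_disjoint _ S hdisj
    have hQM : Q ≤ M := fun x hx => by
      by_contra hxM
      exact Set.disjoint_left.mp hQS hx ⟨x, hxM, 0, by simp⟩
    have haQ : a ∉ Q := fun h => Set.disjoint_left.mp hQS h ⟨1, h1M, 1, by simp⟩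
    obtain ⟨P₂, hP₂, hP₂Q⟩ := Ideal.exists_minimalPrimes_le hIQ
    have hPP : P₂ = P :=
      minimalPrimes_unique_of_integral π M hLD' hP₂ hP (hP₂Q.trans hQM) hPM
    exact haQ (hP₂Q (hPP ▸ haP))
  have habP : a * b ∈ P := hP.1.2 (Ideal.mem_span_singleton.mpr hab)
  rcases hPp.mem_or_mem habP with h | h
  · obtain ⟨t, ht, hd⟩ := key a h
    exact ⟨t, ht, Or.inl hd⟩
  · obtain ⟨t, ht, hd⟩ := key b h
    exact ⟨t, ht, Or.inr hd⟩

end Integral

end Fermat.Agent.S30.Model.BranchAlt
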