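import Mathlib
import Fermat.Agent.S30.Model.ChartInst
import Fermat.Agent.S30.Model.LocalDisc
import Fermat.Agent.S30.Model.DiscUnit
import Fermat.Agent.S30.Model.TSDTransfer
import Fermat.Agent.Lib.TameKummerGlobal
import Fermat.Agent.Lib.TraceNil
import Fermat.Agent.S30.Model.BranchAlt.Cover

/-!
# Abhyankar at the generic point of `s = 0`: trace-self-duality at `s`

`E` a field of characteristic zero, `L / E(w)` finite, `L' = L(s)`, `s ^ e = w` with `e` a common
multiple of the ramification indices of `L / E(w)` over `w = 0` (`TameExp`).  Then the integral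
closure of `E[s]` in `L'` is trace-self-dual at `s` (`tsdField_root`), and so is the integral
closure of `O[s]` for a domain `O` with fraction field `E` (`tsdField_root_of_fraction`).
-/

set_option autoImplicit false

open Polynomial

namespace Fermat.Agent.S30.Model.BranchAlt

open Fermat.Agent.S30.Model Fermat.Agent.Lib

/-- In a Dedekind domain, a nonzero element has a common multiple of its multiplicities at the
primes containing it. -/
theorem exists_tame_exponent {B : Type*} [CommRing B] [IsDedekindDomain B] (t : B) (ht : t ≠ 0) :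
    ∃ e : ℕ, 0 < e ∧ ∀ P : Ideal B, P.IsPrime → P ≠ ⊥ → t ∈ P →
      ∃ k, k ∣ e ∧ t ∈ P ^ k ∧ t ∉ P ^ (k + 1) := by
  classical
  have key : ∀ P : Ideal B, P.IsPrime → P ≠ ⊥ → ∃ k, t ∈ P ^ k ∧ t ∉ P ^ (k + 1) := by
    intro P hP hP0
    by_contra hcon
    push Not at hcon
    have hall : ∀ k, t ∈ P ^ k := by
      intro k
      induction k with
      | zero => simp
      | succ k ih => exact hcon k ih
    have hbot : (⨅ i : ℕ, P ^ i) = ⊥ := Ideal.iInf_pow_eq_bot_of_isDomain P hP.ne_top
    have h1 : t ∈ (⨅ i : ℕ, P ^ i) := (Ideal.mem_iInf).mpr hall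
    rw [hbot] at h1
    exact ht (by simpa using h1)
  choose k hk using key
  have hI : Ideal.span {t} ≠ 0 := by
    rw [Ne, Ideal.zero_eq_bot, Ideal.span_singleton_eq_bot]; exact ht
  let F := (Ideal.finite_factors hI).toFinset
  refine ⟨∏ v ∈ F, k v.asIdeal v.isPrime v.ne_bot, ?_, ?_⟩
  · apply Finset.prod_pos
    intro v hv
    rw [Set.Finite.mem_toFinset, Set.mem_ofPred_eq, Ideal.dvd_span_singleton] at hv
    rcases Nat.eq_zero_or_pos (k v.asIdeal v.isPrime v.ne_bot) with h0 | h0
    · exfalso
      have h1 := (hk v.asIdeal v.isPrime v.ne_bot).2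
      rw [h0, zero_add, pow_one] at h1
      exact h1 hv
    · exact h0
  · intro P hP hP0 htP
    let v : IsDedekindDomain.HeightOneSpectrum B := ⟨P, hP, hP0⟩
    have hv : v ∈ F := by
      rw [Set.Finite.mem_toFinset, Set.mem_ofPred_eq, Ideal.dvd_span_singleton]
      exact htP
    exact ⟨k P hP hP0,
      Finset.dvd_prod_of_mem (fun v => k v.asIdeal v.isPrime v.ne_bot) hv, hk P hP hP0⟩

section Root

variable {E L : Type*} [Field E] [CharZero E] [Field L] [Algebra E L]

/-- The element `w` of the integral closure of `E[w]` in `L`. -/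
noncomputable def wInt (E : Type*) {L : Type*} [Field E] [Field L] [Algebra E L] (w : L) :
    integralClosure (Algebra.adjoin E {w}) L :=
  algebraMap (Algebra.adjoin E {w}) (integralClosure (Algebra.adjoin E {w}) L)
    ⟨w, Algebra.self_mem_adjoin_singleton E w⟩

/-- `e` is a common multiple of the ramification indices of `L / E(w)` over `w = 0`. -/
def TameExp (E : Type*) {L : Type*} [Field E] [Field L] [Algebra E L] (w : L) (e : ℕ) : Prop :=
  ∀ P : Ideal (integralClosure (Algebra.adjoin E {w}) L), P.IsPrime → P ≠ ⊥ → wInt E w ∈ P →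
    ∃ k, k ∣ e ∧ wInt E w ∈ P ^ k ∧ wInt E w ∉ P ^ (k + 1)

theorem exists_tameExp (w : L) (hw : Transcendental E w) (K : IntermediateField E L)
    (hwK : w ∈ K) (hK : K ≤ IntermediateField.adjoin E {w}) [FiniteDimensional K L] :
    ∃ e : ℕ, 0 < e ∧ TameExp E w e := by
  letI algVK : Algebra (Algebra.adjoin E {w}) K := (ChartInst.incl E w K hwK).toAlgebra
  have towerVKL : IsScalarTower (Algebra.adjoin E {w}) K L := ChartInst.isScalarTower_incl E w K hwK
  have fracVK : IsFractionRing (Algebra.adjoin E {w}) K :=
    ChartInst.isFractionRing_incl E w K hwK hK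
  have pidV : IsPrincipalIdealRing (Algebra.adjoin E {w}) :=
    IsPrincipalIdealRing.of_surjective (ChartInst.polyEquiv E w hw).toRingEquiv.toRingHom
      (ChartInst.polyEquiv E w hw).surjective
  have charK : CharZero K := charZero_of_injective_algebraMap (algebraMap E K).injective
  have dedB : IsDedekindDomain (integralClosure (Algebra.adjoin E {w}) L) :=
    integralClosure.isDedekindDomain _ K L
  have hw0 : wInt E w ≠ 0 := by
    intro h0
    have h1 : w = 0 := congrArg (fun c : integralClosure (Algebra.adjoin E {w}) L => (c : L)) h0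
    exact hw (h1 ▸ isAlgebraic_zero)
  exact exists_tame_exponent (wInt E w) hw0

variable {L' : Type*} [Field L'] [Algebra L L'] [Algebra E L'] [IsScalarTower E L L']

attribute [local instance] algAdjoin

set_option maxHeartbeats 1600000 in
/-- **Abhyankar ⇒ trace-self-duality at `s`** (over `E[s]`). -/
theorem tsdField_root (w : L) (hw : Transcendental E w) (K : IntermediateField E L) (hwK : w ∈ K)
    (hK : K ≤ IntermediateField.adjoin E {w}) [FiniteDimensional K L]
    (s : L') (e : ℕ) (he : 0 < e) (hs : s ^ e = algebraMap L L' w)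
    (hgen : Algebra.adjoin L ({s} : Set L') = ⊤)
    [FiniteDimensional (IntermediateField.adjoin E {s}) L'] (hram : TameExp E w e) :
    LocalDisc.TSDField (Algebra.adjoin E {s}) (IntermediateField.adjoin E {s}) L'
      ⟨s, Algebra.self_mem_adjoin_singleton E s⟩ := by
  classical
  letI algVK : Algebra (Algebra.adjoin E {w}) K := (ChartInst.incl E w K hwK).toAlgebra
  have towerVKL : IsScalarTower (Algebra.adjoin E {w}) K L := ChartInst.isScalarTower_incl E w K hwK
  have fracVK : IsFractionRing (Algebra.adjoin E {w}) K :=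
    ChartInst.isFractionRing_incl E w K hwK hK
  have pidV : IsPrincipalIdealRing (Algebra.adjoin E {w}) :=
    IsPrincipalIdealRing.of_surjective (ChartInst.polyEquiv E w hw).toRingEquiv.toRingHom
      (ChartInst.polyEquiv E w hw).surjective
  have charK : CharZero K := charZero_of_injective_algebraMap (algebraMap E K).injective
  have dedB : IsDedekindDomain (integralClosure (Algebra.adjoin E {w}) L) :=
    integralClosure.isDedekindDomain _ K L
  have fracB : IsFractionRing (integralClosure (Algebra.adjoin E {w}) L) L :=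
    integralClosure.isFractionRing_of_finite_extension K L
  have hchar : ∀ P : Ideal (integralClosure (Algebra.adjoin E {w}) L), P.IsPrime → P ≠ ⊥ →
      wInt E w ∈ P → ((e : ℕ) : integralClosure (Algebra.adjoin E {w}) L) ∉ P := by
    intro P hP _ _ hmem
    have hu : IsUnit ((e : ℕ) : integralClosure (Algebra.adjoin E {w}) L) := by
      have h1 : IsUnit ((e : ℕ) : E) := IsUnit.mk0 _ (Nat.cast_ne_zero.mpr he.ne')
      have h2 := h1.map ((algebraMap (Algebra.adjoin E {w})
        (integralClosure (Algebra.adjoin E {w}) L)).comp (algebraMap E (Algebra.adjoin E {w})))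
      rwa [map_natCast] at h2
    exact hP.ne_top (Ideal.eq_top_of_isUnit_mem _ hmem hu)
  have hsL : s ^ e = algebraMap (integralClosure (Algebra.adjoin E {w}) L) L' (wInt E w) := hs
  have hrad : ∀ (z : L'), IsIntegral (Algebra.adjoin E {w}) z → ∀ n : ℕ,
      IsIntegral (Algebra.adjoin E {w}) (z ^ n / s) → IsIntegral (Algebra.adjoin E {w}) (z / s) :=
    fun z hz n hzn => Fermat.Agent.Lib.TameKummer.isIntegral_div_of_pow_base he hram hchar hsL hgen hz hzn
  -- the chart upstairs
  have hsT : Transcendental E s := transcendental_root E hs hw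
  have hsK' : s ∈ IntermediateField.adjoin E {s} := IntermediateField.mem_adjoin_simple_self E s
  have towerRK'L' : IsScalarTower (Algebra.adjoin E {s}) (IntermediateField.adjoin E {s}) L' :=
    isScalarTower_algAdjoin E E s
  have fracRK' : IsFractionRing (Algebra.adjoin E {s}) (IntermediateField.adjoin E {s}) :=
    isFractionRing_algAdjoin E E s
  have pidR : IsPrincipalIdealRing (Algebra.adjoin E {s}) :=
    IsPrincipalIdealRing.of_surjective (ChartInst.polyEquiv E s hsT).toRingEquiv.toRingHom
      (ChartInst.polyEquiv E s hsT).surjective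
  have charK' : CharZero (IntermediateField.adjoin E {s}) :=
    charZero_of_injective_algebraMap (algebraMap E (IntermediateField.adjoin E {s})).injective
  have finC : Module.Finite (Algebra.adjoin E {s}) (integralClosure (Algebra.adjoin E {s}) L') :=
    IsIntegralClosure.finite (Algebra.adjoin E {s}) (IntermediateField.adjoin E {s}) L' _
  have hinjRL' : Function.Injective (algebraMap (Algebra.adjoin E {s}) L') := Subtype.val_injective
  have tfL' : Module.IsTorsionFree (Algebra.adjoin E {s}) L' :=
    Module.isTorsionFree_iff_algebraMap_injective.mpr hinjRL'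
  have freeC : Module.Free (Algebra.adjoin E {s}) (integralClosure (Algebra.adjoin E {s}) L') :=
    Module.free_of_finite_type_torsion_free'
  have hloc : IsLocalization (Algebra.algebraMapSubmonoid
      (integralClosure (Algebra.adjoin E {s}) L') (nonZeroDivisors (Algebra.adjoin E {s}))) L' :=
    IsIntegralClosure.isLocalization (Algebra.adjoin E {s}) (IntermediateField.adjoin E {s}) L' _
  let b := Module.finBasis (Algebra.adjoin E {s}) (integralClosure (Algebra.adjoin E {s}) L')
  set sR : Algebra.adjoin E {s} := ⟨s, Algebra.self_mem_adjoin_singleton E s⟩ with hsR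
  have hsRprime : Prime sR := by
    have h1 : sR = ChartInst.polyEquiv E s hsT X :=
      Subtype.ext (ChartInst.polyEquiv_X E s hsT).symm
    rw [h1]
    exact (MulEquiv.prime_iff (ChartInst.polyEquiv E s hsT)).mpr prime_X
  have hspan : (Ideal.span {sR}).IsPrime :=
    (Ideal.span_singleton_prime hsRprime.ne_zero).mpr hsRprime
  have ntQ : Nontrivial (Algebra.adjoin E {s} ⧸ Ideal.span {sR}) :=
    Ideal.Quotient.nontrivial_iff.mpr hspan.ne_top
  have charQ : CharZero (Algebra.adjoin E {s} ⧸ Ideal.span {sR}) :=
    charZero_of_injective_ringHom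
      (f := (Ideal.Quotient.mk (Ideal.span {sR})).comp (algebraMap E (Algebra.adjoin E {s})))
      (RingHom.injective _)
  have hs0 : s ≠ 0 := by
    intro h0
    have h1 : algebraMap L L' w = 0 := by rw [← hs, h0, zero_pow he.ne']
    have h2 : w = 0 := (map_eq_zero _).mp h1
    exact hw (h2 ▸ isAlgebraic_zero)
  have hrad' : (Ideal.span {algebraMap (Algebra.adjoin E {s})
      (integralClosure (Algebra.adjoin E {s}) L') sR}).IsRadical := by
    intro c hc
    obtain ⟨n, hn⟩ := hc
    obtain ⟨d, hd⟩ := Ideal.mem_span_singleton.mp hn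
    have h0 : (c : L') ^ n = s * (d : L') :=
      congrArg (fun c : integralClosure (Algebra.adjoin E {s}) L' => (c : L')) hd
    have h1 : (c : L') ^ n / s = (d : L') := by
      rw [h0, mul_div_cancel_left₀ _ hs0]
    have hcV : IsIntegral (Algebra.adjoin E {w}) (c : L') := isIntegral_cover E hs he.ne' c.2
    have hdV : IsIntegral (Algebra.adjoin E {w}) ((c : L') ^ n / s) := by
      rw [h1]; exact isIntegral_cover E hs he.ne' d.2
    have hq : IsIntegral (Algebra.adjoin E {s}) ((c : L') / s) :=
      isIntegral_cover' E hs (hrad _ hcV n hdV)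
    rw [Ideal.mem_span_singleton]
    refine ⟨⟨(c : L') / s, hq⟩, Subtype.ext ?_⟩
    show (c : L') = s * ((c : L') / s)
    rw [mul_div_cancel₀ _ hs0]
  have htr : ∀ c : integralClosure (Algebra.adjoin E {s}) L',
      algebraMap (Algebra.adjoin E {s}) (IntermediateField.adjoin E {s})
        (Algebra.trace (Algebra.adjoin E {s}) (integralClosure (Algebra.adjoin E {s}) L') c) =
      Algebra.trace (IntermediateField.adjoin E {s}) L' (c : L') := fun c =>
    (Algebra.trace_localization (Algebra.adjoin E {s}) (nonZeroDivisors (Algebra.adjoin E {s}))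
      (Rₘ := IntermediateField.adjoin E {s}) (Sₘ := L') c).symm
  intro x hx hxy
  have hdiv : ∀ y : integralClosure (Algebra.adjoin E {s}) L',
      sR ∣ Algebra.trace (Algebra.adjoin E {s}) (integralClosure (Algebra.adjoin E {s}) L')
        ((⟨x, hx⟩ : integralClosure (Algebra.adjoin E {s}) L') * y) := by
    intro y
    obtain ⟨w0, hw0⟩ := hxy (y : L') y.2
    refine ⟨w0, ?_⟩
    apply IsFractionRing.injective (Algebra.adjoin E {s}) (IntermediateField.adjoin E {s})
    rw [htr]
    exact hw0
  have hchar0 : ∀ n : ℕ, n ≠ 0 → ¬ sR ∣ ((n : ℕ) : Algebra.adjoin E {s}) := by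
    intro n hn hdvd
    have h1 : ((n : ℕ) : Algebra.adjoin E {s} ⧸ Ideal.span {sR}) = 0 := by
      rw [← map_natCast (Ideal.Quotient.mk (Ideal.span {sR})) n, Ideal.Quotient.eq_zero_iff_mem,
        Ideal.mem_span_singleton]
      exact hdvd
    exact hn (Nat.cast_eq_zero.mp h1)
  have hrad'' : ∀ c : integralClosure (Algebra.adjoin E {s}) L',
      (∃ n : ℕ, algebraMap (Algebra.adjoin E {s}) (integralClosure (Algebra.adjoin E {s}) L') sR ∣
        c ^ n) →
      algebraMap (Algebra.adjoin E {s}) (integralClosure (Algebra.adjoin E {s}) L') sR ∣ c := by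
    rintro c ⟨n, hn⟩
    exact Ideal.mem_span_singleton.mp (hrad' ⟨n, Ideal.mem_span_singleton.mpr hn⟩)
  obtain ⟨z, hz⟩ := Fermat.Agent.Lib.TraceNil.traceSelfDualAt_of_isRadical b hsRprime hchar0 hrad''
    (⟨x, hx⟩ : integralClosure (Algebra.adjoin E {s}) L') hdiv
  refine ⟨(z : L'), z.2, ?_⟩
  have h2 := congrArg (fun c : integralClosure (Algebra.adjoin E {s}) L' => (c : L')) hz
  exact h2

end Root

end Fermat.Agent.S30.Model.BranchAlt
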